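import Fermat.Agent.S35.G.SpecLevel
import Fermat.Agent.A2.T1.H669.T1Core
import Fermat.Agent.S37.H818.ModularNorm
import Fermat.Agent.S37.H988.NormId

/-!
# S35, piece (G'), leaf T1F (helper469): descent from `ℚ̄` to a level `E`

`t1f : T1FStatement` (frozen interface `Fermat/Agent/S35/G/SpecLevel.lean`, architect helper450):

  `IFsStatement → (∀ A E, LevelFrobAt A E M q m) → KummerFrobAt M q m`.

Proof.  Given `f ∈ F̄_{Mq}` with `N_α f = c g ^ m`, `N_β f = c' g' ^ m`: choose a finite set `S` of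
algebraic numbers such that `f`, `g`, `g'`, `c`, `c'` are defined over every intermediate field
containing `S` (`A2.T1.H669.exists_finset_descent`), and a good level `E ⊇ S` stable under the
Frobenius lift `s` (IFs).  Norms commute with the base change `F_E → F̄`
(`iota_normAlong_h469`: equality of degrees `q + 1` at both levels + generation,
`S37.H818.norm_square`), so `y` (with `iota y = f`) satisfies the hypotheses of `LevelFrobAt`;
`m ∣ div` descends by `A2.T1.H669.divisibleDiv_of_ord`.  The conclusion at level `E` is pushed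
back to `ℚ̄` by `iota` (constant `c = 1`).
-/

set_option autoImplicit false
set_option linter.style.haveILetI false
set_option linter.unusedSectionVars false
set_option synthInstance.maxHeartbeats 400000
set_option maxHeartbeats 1600000

noncomputable section

namespace Fermat.Agent.S35.G.H469

open ModularCurve AlgebraicCurve

/-! ## Generalities on the coefficient embedding `iota : F_E → F̄` -/

section Gen

variable (E : IntermediateField ℚ Qb) (F₀ F₁ : IntermediateField ℚ (LaurentSeries ℚ))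

/-- `F̄₁` is generated, as an algebra over `F̄₀` (via any finite `ℚ̄`-algebra map `φ`), by the image
of `F_{E,1}`. -/
theorem adjoin_range_iota_eq_top_h469
    (φ : ↥(laurentBaseChange Qb F₀) →ₐ[Qb] ↥(laurentBaseChange Qb F₁))
    (hfin : FiniteAlong Qb φ) :
    (letI := algebraAlong φ
     Algebra.adjoin ↥(laurentBaseChange Qb F₀) (Set.range (A2.T1.H669.iota E F₁))) = ⊤ := by
  letI := algebraAlong φ
  haveI : Module.Finite ↥(laurentBaseChange Qb F₀) ↥(laurentBaseChange Qb F₁) := hfin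
  haveI : Algebra.IsAlgebraic ↥(laurentBaseChange Qb F₀) ↥(laurentBaseChange Qb F₁) :=
    Algebra.IsAlgebraic.of_finite _ _
  set T : Subalgebra ↥(laurentBaseChange Qb F₀) ↥(laurentBaseChange Qb F₁) :=
    Algebra.adjoin ↥(laurentBaseChange Qb F₀) (Set.range (A2.T1.H669.iota E F₁)) with hT
  rw [eq_top_iff]
  rintro ⟨z, hz⟩ -
  have key : ∃ w : ↥(laurentBaseChange Qb F₁), w ∈ T ∧ (w : LaurentSeries Qb) = z := by
    have hz2 := hz
    rw [mem_laurentBaseChange_iff] at hz2
    induction hz2 using Subfield.closure_induction with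
    | mem y hy =>
        rcases hy with ⟨a, rfl⟩ | ⟨z₀, hz₀, rfl⟩
        · refine ⟨algebraMap Qb ↥(laurentBaseChange Qb F₁) a, ?_, rfl⟩
          have h1 : algebraMap Qb ↥(laurentBaseChange Qb F₁) a =
              algebraMap ↥(laurentBaseChange Qb F₀) ↥(laurentBaseChange Qb F₁)
                (algebraMap Qb ↥(laurentBaseChange Qb F₀) a) := (φ.commutes a).symm
          rw [h1]
          exact T.algebraMap_mem _
        · refine ⟨A2.T1.H669.iota E F₁ ⟨coeffEmb E z₀, coeffEmb_mem_laurentBaseChange E hz₀⟩,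
            Algebra.subset_adjoin ⟨_, rfl⟩, ?_⟩
          exact Fermat.Agent.S18.H602.coeffMap_coeffEmb' (algebraMap E Qb) z₀
    | one => exact ⟨1, one_mem _, rfl⟩
    | add x y hx' hy' hx hy =>
        obtain ⟨w₁, hw₁, rfl⟩ := hx ((mem_laurentBaseChange_iff).2 hx')
        obtain ⟨w₂, hw₂, rfl⟩ := hy ((mem_laurentBaseChange_iff).2 hy')
        exact ⟨w₁ + w₂, add_mem hw₁ hw₂, rfl⟩
    | neg x hx' hx =>
        obtain ⟨w₁, hw₁, rfl⟩ := hx ((mem_laurentBaseChange_iff).2 hx')
        exact ⟨-w₁, neg_mem hw₁, rfl⟩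
    | inv x hx' hx =>
        obtain ⟨w₁, hw₁, rfl⟩ := hx ((mem_laurentBaseChange_iff).2 hx')
        refine ⟨w₁⁻¹, ?_, IntermediateField.coe_inv _ _⟩
        exact T.inv_mem_of_algebraic (x := ⟨w₁, hw₁⟩)
          (Algebra.IsAlgebraic.isAlgebraic (R := ↥(laurentBaseChange Qb F₀)) w₁)
    | mul x y hx' hy' hx hy =>
        obtain ⟨w₁, hw₁, rfl⟩ := hx ((mem_laurentBaseChange_iff).2 hx')
        obtain ⟨w₂, hw₂, rfl⟩ := hy ((mem_laurentBaseChange_iff).2 hy')
        exact ⟨w₁ * w₂, mul_mem hw₁ hw₂, rfl⟩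
  obtain ⟨w, hw, hwz⟩ := key
  have hwz' : w = ⟨z, hz⟩ := Subtype.ext hwz
  rw [← hwz']
  exact hw

/-- **Norms commute with the base change `F_E → F̄`**, for a pair of compatible maps of the same
finite degree. -/
theorem iota_normAlong_h469
    (φE : ↥(laurentBaseChange E F₀) →ₐ[E] ↥(laurentBaseChange E F₁))
    (φ : ↥(laurentBaseChange Qb F₀) →ₐ[Qb] ↥(laurentBaseChange Qb F₁))
    (hsq : ∀ x, A2.T1.H669.iota E F₁ (φE x) = φ (A2.T1.H669.iota E F₀ x))
    (hfinE : FiniteAlong E φE) (hfin : FiniteAlong Qb φ)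
    (hdeg : finrankAlong Qb φ = finrankAlong E φE)
    (y : ↥(laurentBaseChange E F₁)) :
    S29.H395.normAlong φ (A2.T1.H669.iota E F₁ y) =
      A2.T1.H669.iota E F₀ (S29.H395.normAlong φE y) := by
  letI := algebraAlong φE
  letI := algebraAlong φ
  haveI : Module.Finite ↥(laurentBaseChange E F₀) ↥(laurentBaseChange E F₁) := hfinE
  haveI : Module.Finite ↥(laurentBaseChange Qb F₀) ↥(laurentBaseChange Qb F₁) := hfin
  exact S37.H818.norm_square (A2.T1.H669.iota E F₀) (A2.T1.H669.iota E F₁) hsq hdeg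
    (adjoin_range_iota_eq_top_h469 E F₀ F₁ φ hfin) y

/-- `iota` commutes with `frobSub`. -/
theorem iota_frobSub_h469 (φE : ↥(laurentBaseChange E F₁) ≃+* ↥(laurentBaseChange E F₁))
    (φ : ↥(laurentBaseChange Qb F₁) ≃+* ↥(laurentBaseChange Qb F₁))
    (h : ∀ x, A2.T1.H669.iota E F₁ (φE x) = φ (A2.T1.H669.iota E F₁ x)) (Q : ℕ)
    (y : ↥(laurentBaseChange E F₁)) :
    A2.T1.H669.iota E F₁ (frobSub φE Q y) = frobSub φ Q (A2.T1.H669.iota E F₁ y) := by
  unfold frobSub
  rw [map_mul, map_inv₀, map_pow, h]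

/-- `iota` commutes with `frobPoly`. -/
theorem iota_frobPoly_h469 (φE : ↥(laurentBaseChange E F₁) ≃+* ↥(laurentBaseChange E F₁))
    (φ : ↥(laurentBaseChange Qb F₁) ≃+* ↥(laurentBaseChange Qb F₁))
    (h : ∀ x, A2.T1.H669.iota E F₁ (φE x) = φ (A2.T1.H669.iota E F₁ x)) (Q : ℕ)
    (y : ↥(laurentBaseChange E F₁)) :
    A2.T1.H669.iota E F₁ (frobPoly φE Q y) = frobPoly φ Q (A2.T1.H669.iota E F₁ y) := by
  unfold frobPoly
  rw [iota_frobSub_h469 E F₁ φE φ h, iota_frobSub_h469 E F₁ φE φ h,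
    iota_frobSub_h469 E F₁ φE φ h]

end Gen

/-! ## The two degeneracy squares -/

section Squares

variable (E : IntermediateField ℚ Qb) (M q : ℕ) [NeZero M] [NeZero q]

theorem coeffMap_qExpand_h469 {R S : Type*} [CommRing R] [CommRing S] (f : R →+* S) (n : ℕ)
    [NeZero n] (x : LaurentSeries R) : coeffMap f (qExpand R n x) = qExpand S n (coeffMap f x) := by
  ext k
  by_cases hk : (n : ℤ) ∣ k
  · obtain ⟨m, rfl⟩ := hk
    rw [coeffMap_coeff, qExpand_coeff_mul, qExpand_coeff_mul, coeffMap_coeff]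
  · rw [coeffMap_coeff, qExpand_coeff_of_not_dvd n _ hk, qExpand_coeff_of_not_dvd n _ hk,
      map_zero]

theorem iota_alpha_h469 (x : A2.Mod.FE E M) :
    A2.T1.H669.iota E (modularFunctionFieldFull (M * q)) (A2.Mod.αE E M q x) =
      heckeAlphaBar Qb M q (A2.T1.H669.iota E (modularFunctionFieldFull M) x) := by
  apply Subtype.ext
  rw [A2.T1.H669.coe_iota, coe_heckeAlphaBar, coe_heckeAlphaBar, A2.T1.H669.coe_iota]

theorem iota_beta_h469 (x : A2.Mod.FE E M) :
    A2.T1.H669.iota E (modularFunctionFieldFull (M * q)) (A2.Mod.βE E M q x) =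
      heckeBetaBar Qb M q (A2.T1.H669.iota E (modularFunctionFieldFull M) x) := by
  apply Subtype.ext
  rw [A2.T1.H669.coe_iota, coe_heckeBetaBar, coe_heckeBetaBar, A2.T1.H669.coe_iota,
    coeffMap_qExpand_h469]

theorem iota_normAlong_alpha_h469 (hq : q.Prime) (hqM : ¬ q ∣ M) (y : A2.Mod.FE E (M * q)) :
    S29.H395.normAlong (heckeAlphaBar Qb M q)
        (A2.T1.H669.iota E (modularFunctionFieldFull (M * q)) y) =
      A2.T1.H669.iota E (modularFunctionFieldFull M)
        (S29.H395.normAlong (A2.Mod.αE E M q) y) := by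
  refine iota_normAlong_h469 E _ _ (A2.Mod.αE E M q) (heckeAlphaBar Qb M q)
    (iota_alpha_h469 E M q) (S37.H818.finiteAlong_heckeAlphaBar M q hq)
    (S37.H818.finiteAlong_heckeAlphaBar M q hq) ?_ y
  rw [S37.H818.finrankAlong_heckeAlphaBar M q hq hqM,
    S37.H818.finrankAlong_heckeAlphaBar M q hq hqM]

theorem iota_normAlong_beta_h469 (hq : q.Prime) (hqM : ¬ q ∣ M) (y : A2.Mod.FE E (M * q)) :
    S29.H395.normAlong (heckeBetaBar Qb M q)
        (A2.T1.H669.iota E (modularFunctionFieldFull (M * q)) y) =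
      A2.T1.H669.iota E (modularFunctionFieldFull M)
        (S29.H395.normAlong (A2.Mod.βE E M q) y) := by
  refine iota_normAlong_h469 E _ _ (A2.Mod.βE E M q) (heckeBetaBar Qb M q)
    (iota_beta_h469 E M q) (S37.H988.finiteAlong_beta hq hqM)
    (S37.H988.finiteAlong_beta hq hqM) ?_ y
  rw [S37.H988.finrankAlong_beta hq hqM, S37.H988.finrankAlong_beta hq hqM]

end Squares

/-! ## The leaf -/

/-- **T1F.**  Descent of the Kummer form of (G') from `ℚ̄` to the levels. -/
theorem t1f : T1FStatement := by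
  intro M q m _ _ hq hqM hm hqm hIF hLEV A hA s hsF f hf hdiv hNα hNβ
  obtain ⟨c, g, hcg⟩ := hNα
  obtain ⟨c', g', hcg'⟩ := hNβ
  have hsD : s ∈ A.decompositionSubgroup ℚ := hsF.mem_decompositionSubgroup
  classical
  obtain ⟨Sf, hSf⟩ := A2.T1.H669.exists_finset_descent (modularFunctionFieldFull (M * q)) f
  obtain ⟨Sg, hSg⟩ := A2.T1.H669.exists_finset_descent (modularFunctionFieldFull M) g
  obtain ⟨Sg', hSg'⟩ := A2.T1.H669.exists_finset_descent (modularFunctionFieldFull M) g'
  obtain ⟨E, hSE, hE, hs⟩ := hIF q hq A hA s hsD (Sf ∪ Sg ∪ Sg' ∪ {c, c'})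
  have hcE : c ∈ E := hSE c (by simp)
  have hcE' : c' ∈ E := hSE c' (by simp)
  obtain ⟨y, hιy⟩ := hSf E (fun x hx => hSE x (by simp [hx]))
  obtain ⟨gE, hιg⟩ := hSg E (fun x hx => hSE x (by simp [hx]))
  obtain ⟨gE', hιg'⟩ := hSg' E (fun x hx => hSE x (by simp [hx]))
  have hy0 : y ≠ 0 := by
    rintro rfl
    exact hf (by rw [← hιy, map_zero])
  have hdd : A2.DivisibleDiv E m y :=
    A2.T1.H669.divisibleDiv_of_ord E (modularFunctionFieldFull (M * q)) m y hy0
      (fun v => by rw [hιy]; exact hdiv v)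
  have hNαE : NormPow (A2.Mod.αE E M q) m y := by
    refine ⟨⟨c, hcE⟩, gE, ?_⟩
    apply A2.T1.H669.iota_injective E (modularFunctionFieldFull M)
    rw [← iota_normAlong_alpha_h469 E M q hq hqM y, hιy, hcg, map_mul, map_pow,
      A2.T1.H669.iota_algebraMap, hιg]
    rfl
  have hNβE : NormPow (A2.Mod.βE E M q) m y := by
    refine ⟨⟨c', hcE'⟩, gE', ?_⟩
    apply A2.T1.H669.iota_injective E (modularFunctionFieldFull M)
    rw [← iota_normAlong_beta_h469 E M q hq hqM y, hιy, hcg', map_mul, map_pow,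
      A2.T1.H669.iota_algebraMap, hιg']
    rfl
  obtain ⟨h, hh0, hh⟩ := hLEV A E hA hE s hs hsF y hy0 hdd hNαE hNβE
  refine ⟨1, A2.T1.H669.iota E (modularFunctionFieldFull (M * q)) h, one_ne_zero, ?_⟩
  rw [map_one, one_mul, ← map_pow, ← hh,
    iota_frobPoly_h469 E (modularFunctionFieldFull (M * q)) (psiE E (M * q) s hs)
      (actBar (M * q) (s * s))
      (fun x => A2.T1.H669.iota_arithmeticRingAut E (modularFunctionFieldFull (M * q)) (s * s)
        (A2.Mod.resE E s hs * A2.Mod.resE E s hs) (fun e => rfl) x), hιy]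

end Fermat.Agent.S35.G.H469

end
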